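import Mathlib

set_option autoImplicit false

/-!
# S19 / LAT : the abstract echelon lemma (Mathlib only)
-/

namespace Fermat.Agent.S19.Lat

open Module

/-- A finite dimensional space `V` with coordinate functionals `co n`, such that every non zero vector
can be scaled to be `A`-integral with one coordinate equal to `1`, has an `A`-integral echelon basis. -/
theorem echelon {K E : Type*} [Field K] [AddCommGroup E] [Module K E] (co : ℤ → E →ₗ[K] K)
    (A : Subring K) :
    ∀ (n : ℕ) (V : Submodule K E) [FiniteDimensional K V], finrank K V ≤ n →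
    (∀ u ∈ V, u ≠ 0 → ∃ (c : K) (n : ℤ), (∀ k, co k (c • u) ∈ A) ∧ co n (c • u) = 1) →
    ∃ (d : ℕ) (h : Fin d → E) (pos : Fin d → ℤ), (∀ i, h i ∈ V) ∧ (∀ i k, co k (h i) ∈ A) ∧
      (∀ i j, co (pos j) (h i) = if i = j then 1 else 0) ∧
      ∀ u ∈ V, ∃ c : Fin d → K, u = ∑ i, c i • h i := by
  intro n
  induction n with
  | zero =>
    intro V _ hV _
    have hV0 : V = ⊥ := by
      apply Submodule.finrank_eq_zero.1
      omega
    refine ⟨0, Fin.elim0, Fin.elim0, fun i => i.elim0, fun i => i.elim0, fun i => i.elim0, ?_⟩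
    intro u hu
    rw [hV0, Submodule.mem_bot] at hu
    exact ⟨Fin.elim0, by simp [hu]⟩
  | succ n ih =>
    intro V _ hV hn
    by_cases hV0 : V = ⊥
    · refine ⟨0, Fin.elim0, Fin.elim0, fun i => i.elim0, fun i => i.elim0, fun i => i.elim0, ?_⟩
      intro u hu
      rw [hV0, Submodule.mem_bot] at hu
      exact ⟨Fin.elim0, by simp [hu]⟩
    obtain ⟨u0, hu0V, hu0⟩ := (Submodule.ne_bot_iff V).1 hV0
    obtain ⟨c0, p0, hint, hone⟩ := hn u0 hu0V hu0
    set w : E := c0 • u0 with hw
    have hwV : w ∈ V := V.smul_mem _ hu0V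
    set V' : Submodule K E := V ⊓ LinearMap.ker (co p0) with hV'
    have hle : V' ≤ V := inf_le_left
    have hlt : V' < V := by
      refine lt_of_le_of_ne hle ?_
      intro h
      have : w ∈ V' := h ▸ hwV
      have h2 : co p0 w = 0 := LinearMap.mem_ker.1 this.2
      rw [hone] at h2
      exact one_ne_zero h2
    haveI : FiniteDimensional K V' := Submodule.finiteDimensional_of_le hle
    have hfr : finrank K V' ≤ n := by
      have := Submodule.finrank_lt_finrank_of_lt hlt
      omega
    obtain ⟨d, h, pos, hmem, hA, hdel, hspan⟩ := ih V' hfr (fun u hu hu0 => hn u (hle hu) hu0)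
    set w' : E := w - ∑ j, co (pos j) w • h j with hw'
    have hw'V : w' ∈ V :=
      V.sub_mem hwV (V.sum_mem fun j _ => V.smul_mem _ (hle (hmem j)))
    have hh0 : ∀ i, co p0 (h i) = 0 := fun i => LinearMap.mem_ker.1 (hmem i).2
    have hw'0 : co p0 w' = 1 := by
      rw [hw', map_sub, map_sum, hone]
      simp [hh0]
    have hw'pos : ∀ k, co (pos k) w' = 0 := by
      intro k
      rw [hw', map_sub, map_sum]
      simp only [map_smul, smul_eq_mul, hdel]
      simp
    have hw'A : ∀ k, co k w' ∈ A := by
      intro k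
      rw [hw', map_sub, map_sum]
      refine A.sub_mem (hint k) (A.sum_mem fun j _ => ?_)
      rw [map_smul, smul_eq_mul]
      exact A.mul_mem (hint _) (hA j k)
    refine ⟨d + 1, Fin.cons w' h, Fin.cons p0 pos, ?_, ?_, ?_, ?_⟩
    · intro i
      refine Fin.cases ?_ (fun i => ?_) i
      · simpa using hw'V
      · simpa using hle (hmem i)
    · intro i
      refine Fin.cases ?_ (fun i => ?_) i
      · simpa using hw'A
      · simpa using hA i
    · intro i j
      refine Fin.cases ?_ (fun i => ?_) i <;> refine Fin.cases ?_ (fun j => ?_) j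
      · simpa using hw'0
      · simpa [Fin.succ_ne_zero, eq_comm] using hw'pos j
      · simpa [Fin.succ_ne_zero] using hh0 i
      · simpa [Fin.succ_inj] using hdel i j
    · intro u hu
      have h1 : u - co p0 u • w' ∈ V' := by
        refine ⟨V.sub_mem hu (V.smul_mem _ hw'V), ?_⟩
        show u - co p0 u • w' ∈ LinearMap.ker (co p0)
        rw [LinearMap.mem_ker, map_sub, map_smul, hw'0]
        simp
      obtain ⟨c, hc⟩ := hspan _ h1
      refine ⟨Fin.cons (co p0 u) c, ?_⟩
      rw [Fin.sum_univ_succ]
      simp only [Fin.cons_zero, Fin.cons_succ]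
      rw [← hc]
      abel

end Fermat.Agent.S19.Lat
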