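import Fermat.Agent.S19.Lat.Basic
import Fermat.Agent.S19.Lat.Echelon
import Fermat.Agent.GES.Relation
import Fermat.Agent.S54.Frob

set_option autoImplicit false

/-!
# S19 / LAT : `QIntStatement N ℓ → LatStatement N ℓ`

Any echelon basis of a Galois stable `L(B)` is automatically rational (uniqueness), so no Galois descent is
needed: we build an `A`-integral echelon basis for ONE valuation ring `A` above `ℓ`.
-/

noncomputable section

namespace Fermat.Agent.S19.Lat

open AlgebraicCurve ModularCurve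
open Fermat.Agent.S24 (Kb FN IsFF1)
open Fermat.Agent.GES (GQ galF)
open Fermat.Agent.S17.WMW (aG)
open Fermat.Agent.S18 (IntA SmallA)

variable (N : ℕ) [NeZero N]

/-- the `n`-th coefficient of the `q`-expansion. -/
def co (n : ℤ) : FN N →ₗ[Kb] Kb where
  toFun u := u.1.coeff n
  map_add' u v := rfl
  map_smul' c u := by
    show ((c • u : FN N) : LaurentSeries Kb).coeff n = c • u.1.coeff n
    rw [IntermediateField.coe_smul, Algebra.smul_def, Fermat.Agent.S28.coeff_algebraMap_mul,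
      smul_eq_mul]

omit [NeZero N] in
theorem co_apply (n : ℤ) (u : FN N) : co N n u = u.1.coeff n := rfl

theorem normalise {ℓ : ℕ} (hℓ : ℓ.Prime) (hQ : QIntStatement N ℓ) (A : ValuationSubring Kb)
    (hA : A.LiesOverPrime ℓ) (B : Divisor Kb (FN N))
    (hB : ∀ Z, 0 < B Z → Z = oo N ∨ ∃ a, IsIntegral (Rl ℓ) a ∧ jv N Z = some a)
    (u : FN N) (hu : u ∈ Fermat.Agent.RL.LSpace B) (hu0 : u ≠ 0) :
    ∃ (c : Kb) (n : ℤ), (∀ k, co N k (c • u) ∈ A.toSubring) ∧ co N n (c • u) = 1 := by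
  obtain ⟨c, a, b, hc, ha, hb, ha', hb', hf⟩ :=
    Fermat.Agent.GES.exists_normal_form N hℓ A hA u hu0
  have hb0 : b ≠ 0 := Fermat.Agent.GES.rel_ne_zero hb'
  have ha0 : a ≠ 0 := Fermat.Agent.GES.rel_ne_zero ha'
  have hc' : algebraMap Kb (FN N) c ≠ 0 := by simpa using hc
  set u' : FN N := a / b with hu'
  have hu'b : u' * b = a := div_mul_cancel₀ a hb0
  have hG : GInt A u' := ⟨a, b, ha, hb, hb', hu'b⟩
  have hu'0 : u' ≠ 0 := div_ne_zero ha0 hb0
  have hpol : ∀ Z : Place Kb (FN N), Z.ord u' < 0 → Z = oo N ∨ ∃ a ∈ A, jv N Z = some a := by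
    intro Z hZ
    have h1 : Z.ord u = Z.ord u' := by
      rw [hf, Place.ord_mul Z hc' hu'0, Fermat.Agent.S24.ord_algebraMap, zero_add]
    have h2 : 0 ≤ Z.ord u + B Z := by
      rcases hu with h | h
      · exact absurd h hu0
      · exact h Z
    rcases hB Z (by omega) with h | ⟨x, hx, hxj⟩
    · exact Or.inl h
    · exact Or.inr ⟨x, mem_of_isIntegral_Rl hA hx, hxj⟩
  have hint : IntA A u'.1 := hQ A hA u' hG hpol
  have hns : ¬ SmallA A u'.1 := by
    intro hs
    apply ha'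
    have : a.1 = u'.1 * b.1 := by rw [← hu'b]; rfl
    rw [this]
    exact Fermat.Agent.GES.SmallA.mul_right hs hb
  have hex : ∃ n, u'.1.coeff n ∉ A.nonunits := by
    by_contra hcon
    push Not at hcon
    exact hns hcon
  obtain ⟨n, hn⟩ := hex
  set e : Kb := u'.1.coeff n with he
  have he0 : e ≠ 0 := by
    intro h0
    apply hn
    rw [h0, ValuationSubring.mem_nonunits_iff, map_zero]
    exact zero_lt_one
  have heinv : e⁻¹ ∈ A := inv_mem_of_not_nonunits (hint n) hn
  have hcu : (e⁻¹ * c⁻¹) • u = e⁻¹ • u' := by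
    rw [hf, mul_smul, Algebra.smul_def c⁻¹, ← mul_assoc, ← map_mul, inv_mul_cancel₀ hc, map_one,
      one_mul]
  refine ⟨e⁻¹ * c⁻¹, n, ?_, ?_⟩
  · intro k
    rw [hcu, map_smul, smul_eq_mul]
    exact A.mul_mem _ _ heinv (hint k)
  · rw [hcu, map_smul, smul_eq_mul, co_apply, ← he, inv_mul_cancel₀ he0]

/-- **LAT**. -/
theorem lat {ℓ : ℕ} (hℓ : ℓ.Prime) (hQ : QIntStatement N ℓ) : LatStatement N ℓ := by
  intro B hBσ hB
  obtain ⟨A, hA⟩ := Fermat.Agent.S54.exists_liesOverPrime hℓ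
  have := Fermat.Agent.RL.finiteDimensional_LSpace (hFF N) B
  obtain ⟨d, h, pos, hmem, hint, hdel, hspan⟩ :=
    echelon (co N) A.toSubring _ (Fermat.Agent.RL.LSpace B) le_rfl
      (normalise N hℓ hQ A hA B hB)
  have huniq : ∀ u ∈ Fermat.Agent.RL.LSpace B, (∀ j, co N (pos j) u = 0) → u = 0 := by
    intro u hu h0
    obtain ⟨c, hc⟩ := hspan u hu
    have hc0 : ∀ j, c j = 0 := by
      intro j
      have h1 := h0 j
      rw [hc, map_sum] at h1
      simpa [hdel] using h1
    rw [hc]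
    simp [hc0]
  have hrat : ∀ i, IsRat (h i) := by
    intro i σ
    have h1 : galF N σ (h i) ∈ Fermat.Agent.RL.LSpace B := by
      have h2 := Fermat.Agent.RL.smul_mem_LSpace (aG N σ) (hmem i)
      rw [hBσ σ] at h2
      exact h2
    have h3 := huniq (galF N σ (h i) - h i) (Submodule.sub_mem _ h1 (hmem i)) (fun j => by
      rw [map_sub, co_apply, Fermat.Agent.GES.coe_galF, coeffMap_coeff, ← co_apply, hdel i j]
      split_ifs <;> simp)
    exact sub_eq_zero.1 h3
  refine ⟨d, h, pos, hrat, hmem, ?_, hdel, ?_⟩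
  · intro i n
    apply exists_Rl_of_fixed hℓ hA _ (hint i n)
    intro σ
    have h1 := congrArg (fun u : FN N => u.1.coeff n) (hrat i σ)
    simp only [Fermat.Agent.GES.coe_galF, coeffMap_coeff] at h1
    exact h1
  · intro u hu
    obtain ⟨c, hc⟩ := hspan u hu
    exact ⟨c, by rw [hc]; simp [Algebra.smul_def]⟩

end Fermat.Agent.S19.Lat
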