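import Fermat.Agent.S19.Defs

set_option autoImplicit false

/-!
# S19 / LAT : basic facts on `ℤ_(ℓ)` and the valuation rings above `ℓ`
-/

noncomputable section

namespace Fermat.Agent.S19.Lat

open Fermat.Agent.S24 (Kb)
open Fermat.Agent.GES (GQ)

variable {A : ValuationSubring Kb} {ℓ : ℕ}

theorem intCast_mem' (A : ValuationSubring Kb) (n : ℤ) : (n : Kb) ∈ A := _root_.intCast_mem A n

theorem natCast_mem' (A : ValuationSubring Kb) (n : ℕ) : (n : Kb) ∈ A := _root_.natCast_mem A n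

theorem natCast_not_nonunits (hA : A.LiesOverPrime ℓ) {n : ℕ} (hn : n.Coprime ℓ) :
    (n : Kb) ∉ A.nonunits := by
  intro h
  have hb : (n : ℤ) * Nat.gcdA n ℓ + (ℓ : ℤ) * Nat.gcdB n ℓ = 1 := by
    have := Nat.gcd_eq_gcd_ab n ℓ
    rw [hn] at this
    exact_mod_cast this.symm
  have hb' : (n : Kb) * (Nat.gcdA n ℓ : Kb) + (ℓ : Kb) * (Nat.gcdB n ℓ : Kb) = 1 := by
    exact_mod_cast congrArg (Int.cast : ℤ → Kb) hb
  have hℓ : (ℓ : Kb) ∈ A.nonunits := hA
  rw [ValuationSubring.mem_nonunits_iff] at h hℓ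
  have h1 : A.valuation ((n : Kb) * (Nat.gcdA n ℓ : Kb)) < 1 := by
    rw [map_mul]
    exact mul_lt_one_of_lt_of_le h ((A.valuation_le_one_iff _).2 (intCast_mem' A _))
  have h2 : A.valuation ((ℓ : Kb) * (Nat.gcdB n ℓ : Kb)) < 1 := by
    rw [map_mul]
    exact mul_lt_one_of_lt_of_le hℓ ((A.valuation_le_one_iff _).2 (intCast_mem' A _))
  have h3 := A.valuation.map_add_lt h1 h2
  rw [hb', map_one] at h3
  exact lt_irrefl _ h3

theorem inv_mem_of_not_nonunits {x : Kb} (hx : x ∈ A) (hx' : x ∉ A.nonunits) : x⁻¹ ∈ A := by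
  rw [ValuationSubring.mem_nonunits_iff, not_lt] at hx'
  have h1 : A.valuation x = 1 := le_antisymm ((A.valuation_le_one_iff x).2 hx) hx'
  rw [← A.valuation_le_one_iff, map_inv₀, h1, inv_one]

theorem ratCast_mem (hA : A.LiesOverPrime ℓ) {r : ℚ} (hr : r.den.Coprime ℓ) :
    algebraMap ℚ Kb r ∈ A := by
  have h1 : algebraMap ℚ Kb r = (r.num : Kb) * ((r.den : Kb))⁻¹ := by
    conv_lhs => rw [← Rat.num_div_den r]
    rw [map_div₀, div_eq_mul_inv]
    simp
  rw [h1]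
  exact A.mul_mem _ _ (intCast_mem' A _)
    (inv_mem_of_not_nonunits (natCast_mem' A _) (natCast_not_nonunits hA hr))

theorem algebraMap_Rl_mem (hA : A.LiesOverPrime ℓ) (r : Rl ℓ) : algebraMap (Rl ℓ) Kb r ∈ A :=
  ratCast_mem hA r.2

theorem mem_of_isIntegral_Rl (hA : A.LiesOverPrime ℓ) {a : Kb} (h : IsIntegral (Rl ℓ) a) :
    a ∈ A :=
  Fermat.Agent.S18.mem_of_isIntegralElem A (algebraMap (Rl ℓ) Kb) (algebraMap_Rl_mem hA) h

theorem exists_rat_of_fixed {z : Kb} (hfix : ∀ σ : GQ, σ z = z) : ∃ r : ℚ, z = algebraMap ℚ Kb r := by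
  have h1 : Algebra.IsAlgebraic ℚ Kb := AlgebraicClosure.isAlgebraic ℚ
  have h2 : IsAlgClosure ℚ Kb := ⟨inferInstance, h1⟩
  have h3 : IsGalois ℚ Kb := {}
  obtain ⟨r, hr⟩ := (InfiniteGalois.mem_range_algebraMap_iff_fixed z).2 hfix
  exact ⟨r, hr.symm⟩

theorem exists_Rl_of_fixed (hℓ : ℓ.Prime) (hA : A.LiesOverPrime ℓ) {z : Kb}
    (hfix : ∀ σ : GQ, σ z = z) (hz : z ∈ A) : ∃ r : Rl ℓ, z = algebraMap (Rl ℓ) Kb r := by
  obtain ⟨r, rfl⟩ := exists_rat_of_fixed hfix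
  suffices h : r.den.Coprime ℓ from ⟨⟨r, h⟩, rfl⟩
  by_contra hcon
  have hdvd : ℓ ∣ r.den := by
    rcases (Nat.coprime_or_dvd_of_prime hℓ r.den) with h | h
    · exact absurd h.symm hcon
    · exact h
  have hnum : (r.num.natAbs).Coprime ℓ := by
    have := r.reduced
    exact Nat.Coprime.coprime_dvd_right hdvd this
  have h1 : algebraMap ℚ Kb r * (r.den : Kb) = (r.num : Kb) := by
    have h2 : r * (r.den : ℚ) = (r.num : ℚ) := Rat.mul_den_eq_num r
    have := congrArg (algebraMap ℚ Kb) h2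
    rw [map_mul, map_natCast, map_intCast] at this
    exact this
  have hden : (r.den : Kb) ∈ A.nonunits := by
    obtain ⟨k, hk⟩ := hdvd
    rw [hk, Nat.cast_mul, ValuationSubring.mem_nonunits_iff, map_mul]
    have hℓ' : (ℓ : Kb) ∈ A.nonunits := hA
    rw [ValuationSubring.mem_nonunits_iff] at hℓ'
    exact mul_lt_one_of_lt_of_le hℓ' ((A.valuation_le_one_iff _).2 (natCast_mem' A _))
  have h3 : (r.num : Kb) ∈ A.nonunits := by
    rw [← h1, ValuationSubring.mem_nonunits_iff, map_mul, mul_comm]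
    rw [ValuationSubring.mem_nonunits_iff] at hden
    exact mul_lt_one_of_lt_of_le hden ((A.valuation_le_one_iff _).2 hz)
  have h4 : ((r.num.natAbs : ℕ) : Kb) ∈ A.nonunits := by
    rw [ValuationSubring.mem_nonunits_iff] at h3 ⊢
    rcases Int.natAbs_eq r.num with h | h
    · rw [h] at h3
      simpa using h3
    · rw [h] at h3
      simpa using h3
  exact natCast_not_nonunits hA hnum h4

end Fermat.Agent.S19.Lat
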